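/-
S33 study, finite flat side (helper16): a connected finite flat group scheme over an unramified base
has no nonzero subquotient killed by `p` whose points are all rational over the base.

Abstract form.  `O` a principal ideal domain in which the odd prime `p` is not zero and which is
`p`-adically separated (e.g. `O^ur`), `Ω ⊇ O` an algebraically closed field of characteristic zero,
`H` a finite cocommutative Hopf algebra over `O`, `T₂` a finite subgroup of the group of `Ω`-points
over which traces exist (`hsum`, Galois descent in the applications), `q` the quotient map by `T₂`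
and `Q'` a subgroup of the quotient.  If the `T₂`-invariant functions take values in `O` on the
points over `Q'` ("`Q'` is unramified") and are congruent modulo `p` to their value at the unit point
there ("connected"), then `Q'` has no `p`-torsion: `q g ∈ Q' → g ^ p ∈ T₂ → g ∈ T₂`.

Proof: the invariant functions form a function-level Hopf order on the quotient
(`S19x/FF/OfQuotient.isFunHopfOrder_quotOrder`) which separates its points
(`eq_of_forall_invFun_eq`); by LEMMA (CP) (`S33x/CPCore.eq_of_coClosed_of_connected`, finite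
differences) their restrictions to `Q'` do not separate `0` from a point killed by `p`.
-/
import Mathlib
import Fermat.Agent.S19x.FF.OfQuotient
import Fermat.Agent.S33x.CPCore

set_option autoImplicit false
set_option linter.unusedSectionVars false
set_option linter.style.longLine false

noncomputable section

namespace Fermat.Agent.S33x.FF.ConnQuot

open TensorProduct WithConv Coalgebra
open Fermat.Agent.S56x.Hopf Fermat.Agent.S56x.Fontaine.UnrQuot Fermat.Agent.S19x.FF.QuotientCore
open Fermat.Agent.S19x.Alg.FunOrder Fermat.Agent.S19x.FF.OfQuotient Fermat.Agent.S33x.CPCore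

universe u v w

variable {O : Type u} {H : Type v} {Ω : Type w}
  [CommRing O] [CommRing H] [HopfAlgebra O H] [Coalgebra.IsCocomm O H]
  [Field Ω] [Algebra O Ω] {Q : Type*} [AddCommGroup Q]

/-- coefficientwise extension of scalars of functions. -/
def toΩ (Z : Type*) : (Z → O) →ₗ[O] (Z → Ω) := (Algebra.linearMap O Ω).compLeft Z

@[simp] theorem toΩ_apply (Z : Type*) (F : Z → O) (z : Z) :
    toΩ (Ω := Ω) Z F z = algebraMap O Ω (F z) := rfl

theorem toΩ_injective (hinj : Function.Injective (algebraMap O Ω)) (Z : Type*) :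
    Function.Injective (toΩ (O := O) (Ω := Ω) Z) := by
  intro F G hFG
  funext z
  exact hinj (congrFun hFG z)

/-- restriction of functions along a map, as a linear map. -/
def resL {Z Z' : Type*} (φ : Z' → Z) : (Z → Ω) →ₗ[O] (Z' → Ω) := LinearMap.funLeft O Ω φ

@[simp] theorem resL_apply {Z Z' : Type*} (φ : Z' → Z) (f : Z → Ω) (z : Z') :
    resL (O := O) φ f z = f (φ z) := rfl

/-- the `O`-valued functions on the subgroup `Q'` of the quotient which are restrictions of
invariant functions. -/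
def intOrder {T₂ : Submonoid (Pts O H Ω)} {q : Pts O H Ω → Q} (hq : IsQuotMap T₂ q)
    (Q' : AddSubgroup Q) : Submodule O (Q' → O) :=
  Submodule.comap (toΩ Q')
    (Submodule.map (resL (Subtype.val : Q' → Q)) (Subalgebra.toSubmodule (quotOrder hq)))

theorem mem_intOrder {T₂ : Submonoid (Pts O H Ω)} {q : Pts O H Ω → Q} (hq : IsQuotMap T₂ q)
    {Q' : AddSubgroup Q} {F : Q' → O} :
    F ∈ intOrder hq Q' ↔ ∃ f ∈ quotOrder hq, ∀ z : Q', f z = algebraMap O Ω (F z) := by
  constructor
  · rintro ⟨f, hf, hfF⟩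
    exact ⟨f, hf, fun z => congrFun hfF z⟩
  · rintro ⟨f, hf, hfF⟩
    exact ⟨f, hf, funext hfF⟩

/-- if the invariant functions are `O`-valued over `Q'`, the restriction to `Q'` of every function
of the quotient order comes from the integral order. -/
theorem exists_intOrder_of_mem {T₂ : Submonoid (Pts O H Ω)} {q : Pts O H Ω → Q}
    (hq : IsQuotMap T₂ q) {Q' : AddSubgroup Q}
    (hval : ∀ a ∈ invFun T₂, ∀ x : Pts O H Ω, q x ∈ Q' → ∃ c : O, x a = algebraMap O Ω c)
    {f : Q → Ω} (hf : f ∈ quotOrder hq) :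
    ∃ F ∈ intOrder hq Q', ∀ z : Q', f z = algebraMap O Ω (F z) := by
  obtain ⟨a, ha, rfl⟩ := (mem_quotOrder hq).1 hf
  have h1 : ∀ z : Q', ∃ c : O, ev hq.surj a z = algebraMap O Ω c := by
    intro z
    obtain ⟨x, hx⟩ := hq.surj z
    obtain ⟨c, hc⟩ := hval a ha x (by rw [hx]; exact z.2)
    exact ⟨c, by rw [← hx, ev_eq hq ha, hc]⟩
  choose F hF using h1
  exact ⟨F, (mem_intOrder hq).2 ⟨_, ev_mem_quotOrder hq ha, hF⟩, hF⟩

section Main

variable [IsDomain O] [IsPrincipalIdealRing O] [Module.Finite O H] [CharZero Ω] [IsAlgClosed Ω]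

/-- the integral order on `Q'` is co-closed. -/
theorem coClosed_intOrder (hinj : Function.Injective (algebraMap O Ω)) {n : ℕ}
    (b : Module.Basis (Fin n) O H) {T₂ : Submonoid (Pts O H Ω)} {q : Pts O H Ω → Q}
    (hq : IsQuotMap T₂ q) {Q' : AddSubgroup Q}
    (hval : ∀ a ∈ invFun T₂, ∀ x : Pts O H Ω, q x ∈ Q' → ∃ c : O, x a = algebraMap O Ω c) :
    CoClosed (intOrder hq Q') := by
  have hS := isFunHopfOrder_quotOrder hinj b (sep_of_isAlgClosed (L := Ω) b) hq
  intro F hF
  obtain ⟨f, hf, hfF⟩ := (mem_intOrder hq).1 hF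
  have h1 := mem_boxProd_iff.1 (isDeltaClosed_iff.1 hS.delta f hf)
  -- restrict to `Q' × Q'`
  let φ : Q' × Q' → Q × Q := fun st => ((st.1 : Q), (st.2 : Q))
  have h2 := Submodule.mem_map_of_mem (f := resL (O := O) (Ω := Ω) φ) h1
  rw [Submodule.map_span] at h2
  -- the restricted spanning set is the image of the integral spanning set
  have h3 : resL (O := O) (Ω := Ω) φ '' {G : Q × Q → Ω | ∃ f ∈ quotOrder hq, ∃ g ∈ quotOrder hq,
        G = fun xy => f xy.1 * g xy.2} ⊆
      toΩ (Q' × Q') '' {G : Q' × Q' → O | ∃ g ∈ intOrder hq Q', ∃ h ∈ intOrder hq Q',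
        G = fun st => g st.1 * h st.2} := by
    rintro _ ⟨G, ⟨f₁, hf₁, f₂, hf₂, rfl⟩, rfl⟩
    obtain ⟨F₁, hF₁, h₁⟩ := exists_intOrder_of_mem hq hval hf₁
    obtain ⟨F₂, hF₂, h₂⟩ := exists_intOrder_of_mem hq hval hf₂
    refine ⟨fun st => F₁ st.1 * F₂ st.2, ⟨F₁, hF₁, F₂, hF₂, rfl⟩, ?_⟩
    funext st
    simp only [toΩ_apply, map_mul, resL_apply, φ, h₁, h₂]
  have h4 := Submodule.span_mono (R := O) h3 h2
  rw [Submodule.span_image] at h4
  obtain ⟨G', hG', hGeq⟩ := h4
  have h5 : G' = fun st : Q' × Q' => F (st.1 + st.2) := by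
    apply toΩ_injective hinj
    rw [hGeq]
    funext st
    simp only [resL_apply, toΩ_apply, φ]
    rw [← hfF (st.1 + st.2)]
    rfl
  rw [← h5]
  exact hG'

/-- **No `p`-torsion in an unramified subquotient of a connected group.** -/
theorem mem_of_pow_mem (hinj : Function.Injective (algebraMap O Ω)) {p : ℕ} (hp : p.Prime)
    (hp2 : p ≠ 2) (hpO : (p : O) ≠ 0)
    (hsepO : ∀ c : O, (∀ m : ℕ, (p : O) ^ m ∣ c) → c = 0)
    {n : ℕ} (b : Module.Basis (Fin n) O H)
    {T₂ : Submonoid (Pts O H Ω)} [Fintype T₂] {q : Pts O H Ω → Q} (hq : IsQuotMap T₂ q)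
    (Q' : AddSubgroup Q)
    (hsum : ∀ h : H, ∃ a : O, ∑ t : T₂, (t : Pts O H Ω) h = algebraMap O Ω a)
    (hval : ∀ a ∈ invFun T₂, ∀ x : Pts O H Ω, q x ∈ Q' → ∃ c : O, x a = algebraMap O Ω c)
    (hconn : ∀ a ∈ invFun T₂, ∀ x : Pts O H Ω, q x ∈ Q' → ∃ c : O,
      x a - algebraMap O Ω (counit (R := O) a) = algebraMap O Ω ((p : O) * c))
    (g : Pts O H Ω) (hgQ : q g ∈ Q') (hg : g ^ p ∈ T₂) : g ∈ T₂ := by
  have hsep := sep_of_isAlgClosed (L := Ω) b
  have htr := htr_of_sum_mem b T₂ hsum
  have hco := coClosed_intOrder hinj b hq hval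
  -- `p • q g = 0`
  have hqpow : ∀ m : ℕ, q (g ^ m) = m • q g := by
    intro m
    induction m with
    | zero => rw [pow_zero, hq.map_one, zero_smul]
    | succ m ih => rw [pow_succ, hq.map_mul, ih, succ_nsmul]
  have hpz : p • (⟨q g, hgQ⟩ : Q') = 0 := by
    apply Subtype.ext
    rw [AddSubgroup.coe_nsmul, AddSubgroup.coe_zero]
    show p • q g = 0
    rw [← hqpow, (hq.ker _).2 hg]
  have h0 : ((0 : Q') : Q) = q 1 := by rw [hq.map_one]; rfl
  -- connectedness at `q g`
  have hc : ∀ F ∈ intOrder hq Q', (p : O) ∣ F ⟨q g, hgQ⟩ - F 0 := by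
    intro F hF
    obtain ⟨f, hf, hfF⟩ := (mem_intOrder hq).1 hF
    obtain ⟨a, ha, rfl⟩ := (mem_quotOrder hq).1 hf
    obtain ⟨c, hc⟩ := hconn a ha g hgQ
    refine ⟨c, hinj ?_⟩
    have h1 : algebraMap O Ω (F ⟨q g, hgQ⟩) = g a := by
      rw [← hfF]
      exact ev_eq hq ha g
    have h2 : algebraMap O Ω (F 0) = algebraMap O Ω (counit (R := O) a) := by
      rw [← hfF, h0, ev_eq hq ha]
      rfl
    rw [map_sub, h1, h2, hc]
  -- (CP)
  have hCP : ∀ F ∈ intOrder hq Q', F ⟨q g, hgQ⟩ = F 0 := fun F hF =>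
    eq_of_coClosed_of_connected hp hp2 (fun a ha => (mul_eq_zero.1 ha).resolve_left hpO) hsepO hco
      hc hpz hF
  -- separation
  have h1 : q g = q 1 := by
    refine eq_of_forall_invFun_eq hinj b hsep hq htr fun a ha => ?_
    obtain ⟨F, hF, hFa⟩ := exists_intOrder_of_mem hq hval (ev_mem_quotOrder hq ha)
    have h2 := hCP F hF
    have h3 : g a = algebraMap O Ω (F ⟨q g, hgQ⟩) := by
      rw [← hFa]
      exact (ev_eq hq ha g).symm
    have h4 : (1 : Pts O H Ω) a = algebraMap O Ω (F 0) := by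
      rw [← hFa, h0, ev_eq hq ha]
    rw [h3, h4, h2]
  rw [hq.map_one] at h1
  exact (hq.ker g).1 h1

end Main

end Fermat.Agent.S33x.FF.ConnQuot
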