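/-
S33 study, LEMMA (CP) complete (helper16): a connected function-level Hopf order over `O^ur` has no
subquotient of exponent `p` with trivial inertia action.

`P` a valuation subring of `ℚ̄` over the odd prime `p`, `O = inertiaInt P` (`= O^ur`),
`I = P.inertiaSubgroupIn ℚ`.  `X` a finite abelian group with maps `act σ : X → X`,
`L ⊆ (X → ℚ̄)` a function-level Hopf order over `O` (`Alg.FunOrder.IsFunHopfOrder`), free on `|X|`
`ℚ̄`-independent functions, inertia-equivariant and `P`-valued.  If `A ≤ B ≤ X` are subgroups with `A`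
inertia-stable, inertia acting trivially on `B / A`, `p B ≤ A`, and the functions of `L` are
congruent to their value at `0` modulo the maximal ideal of `P` on `B` (connectedness), then `B = A`.
-/
import Mathlib
import Fermat.Agent.S19x.HopfOrderFF
import Fermat.Agent.S56x.Flat.InertiaField
import Fermat.Agent.S33x.FF.ConnQuot

set_option autoImplicit false
set_option linter.unusedSectionVars false
set_option linter.style.longLine false
set_option linter.style.haveILetI false

noncomputable section

namespace Fermat.Agent.S33x.FF.NoTriv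

open TensorProduct WithConv Coalgebra
open Fermat.Agent.S56x.Hopf Fermat.Agent.S56x.Fontaine.UnrQuot Fermat.Agent.S19x.FF.QuotientCore
open Fermat.Agent.S19x.Alg.FunOrder Fermat.Agent.S19x.FF.OfQuotient
open Fermat.Agent.S56x.Flat.InertiaField Fermat.Agent.S19x.HopfOrder

local notation "Qbar" => AlgebraicClosure ℚ
local notation "Γℚ" => (AlgebraicClosure ℚ ≃ₐ[ℚ] AlgebraicClosure ℚ)

theorem le_of_connected_of_trivial {p : ℕ} (hp : p.Prime) (hp2 : p ≠ 2)
    (P : ValuationSubring Qbar) (hP : P.LiesOverPrime p)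
    {X : Type} [AddCommGroup X] [Finite X] (act : Γℚ → X → X)
    (L : Subalgebra (inertiaInt P) (X → Qbar)) (hL : IsFunHopfOrder L)
    {κ : Type} [Fintype κ] (b : Module.Basis κ (inertiaInt P) L)
    (hli : LinearIndependent Qbar (fun i => ((b i : L) : X → Qbar)))
    (hcard : Fintype.card κ = Nat.card X)
    (hequiv : ∀ f ∈ L, ∀ σ ∈ P.inertiaSubgroupIn ℚ, ∀ x : X, f (act σ x) = σ (f x))
    (hint : ∀ f ∈ L, ∀ x : X, f x ∈ P)
    (A B : AddSubgroup X) (hAB : A ≤ B)
    (hA : ∀ σ ∈ P.inertiaSubgroupIn ℚ, ∀ a ∈ A, act σ a ∈ A)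
    (htriv : ∀ σ ∈ P.inertiaSubgroupIn ℚ, ∀ x ∈ B, act σ x - x ∈ A)
    (hconn : ∀ f ∈ L, ∀ x ∈ B, f x - f 0 ∈ P.nonunits)
    (hpB : ∀ x ∈ B, p • x ∈ A) : B ≤ A := by
  classical
  haveI : IsDiscreteValuationRing (inertiaInt P) := isDiscreteValuationRing_inertiaInt P hp hP
  have hinj : Function.Injective (algebraMap (inertiaInt P) Qbar) := Subtype.val_injective
  let D : Datum L.val κ := Fermat.Agent.S19x.HopfOrderFF.datumOfFunHopfOrder L hL b hli hinj
  letI : HopfAlgebra (inertiaInt P) L := D.hopf
  haveI : Coalgebra.IsCocomm (inertiaInt P) L := D.isCocomm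
  haveI : Module.Finite (inertiaInt P) L := Module.Finite.of_basis b
  let e : Pts (inertiaInt P) L Qbar ≃ X := (D.pointEquiv hcard).symm
  have hadd : ∀ f g : Pts (inertiaInt P) L Qbar, e (f * g) = e f + e g :=
    D.pointEquiv_symm_mul hcard
  have hpt : ∀ (t : Pts (inertiaInt P) L Qbar) (a : L), t a = (a : X → Qbar) (e t) := by
    intro t a
    obtain ⟨x, rfl⟩ := e.symm.surjective t
    rw [Equiv.apply_symm_apply]
    rfl
  have he1 : e 1 = 0 := by
    have := hadd 1 1
    rw [mul_one] at this
    exact left_eq_add.mp this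
  -- the counit in function terms
  have hcounit : ∀ a : L, algebraMap (inertiaInt P) Qbar (counit (R := inertiaInt P) a) =
      (a : X → Qbar) 0 := fun a => D.algebraMap_counitAlg a
  -- separation of points
  have hsepX : ∀ x x' : X, (∀ f ∈ L, f x = f x') → x = x' := by
    intro x x' h
    have h1 : e.symm x = e.symm x' := by
      apply WithConv.ofConv_injective
      apply AlgHom.ext
      intro a
      have h2 := hpt (e.symm x) a
      have h3 := hpt (e.symm x') a
      rw [Equiv.apply_symm_apply] at h2 h3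
      exact h2.trans ((h a a.2).trans h3.symm)
    exact e.symm.injective h1
  have hactinj : ∀ σ ∈ P.inertiaSubgroupIn ℚ, Function.Injective (act σ) := by
    intro σ hσ x x' hxx'
    refine hsepX x x' fun f hf => ?_
    have h1 := hequiv f hf σ hσ x
    have h2 := hequiv f hf σ hσ x'
    rw [hxx'] at h1
    exact σ.injective (h1.symm.trans h2)
  -- the subgroup of points over `A` and the quotient map
  let T₂ : Submonoid (Pts (inertiaInt P) L Qbar) :=
    { carrier := {t | e t ∈ A}
      one_mem' := by
        show e 1 ∈ A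
        rw [he1]
        exact A.zero_mem
      mul_mem' := by
        intro s t hs ht
        show e (s * t) ∈ A
        rw [hadd]
        exact A.add_mem hs ht }
  have hT₂ : ∀ t : Pts (inertiaInt P) L Qbar, t ∈ T₂ ↔ e t ∈ A := fun _ => Iff.rfl
  let q : Pts (inertiaInt P) L Qbar → X ⧸ A := fun t => QuotientAddGroup.mk (e t)
  have hq : IsQuotMap T₂ q :=
    { surj := fun z => by
        obtain ⟨x, rfl⟩ := QuotientAddGroup.mk_surjective z
        exact ⟨e.symm x, by simp [q]⟩
      map_mul := fun x y => by simp only [q, hadd, QuotientAddGroup.mk_add]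
      ker := fun x => by simp only [q, QuotientAddGroup.eq_zero_iff, hT₂] }
  haveI : Finite (Pts (inertiaInt P) L Qbar) := Finite.of_equiv _ e.symm
  haveI : Fintype T₂ := Fintype.ofFinite _
  let Q' : AddSubgroup (X ⧸ A) := B.map (QuotientAddGroup.mk' A)
  have hQ' : ∀ t : Pts (inertiaInt P) L Qbar, q t ∈ Q' → e t ∈ B := by
    rintro t ⟨y, hy, hyt⟩
    have h1 : -y + e t ∈ A := by
      rw [← QuotientAddGroup.eq]
      exact hyt
    have h2 : e t = y + (-y + e t) := by abel
    rw [h2]
    exact B.add_mem hy (hAB h1)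
  -- invariance in function terms
  have hinv : ∀ a : L, a ∈ invFun T₂ → ∀ (x : X), ∀ y ∈ A, (a : X → Qbar) (x + y) = (a : X → Qbar) x := by
    intro a ha x y hy
    have h1 := ha (e.symm x) (e.symm y) (by rw [hT₂, Equiv.apply_symm_apply]; exact hy)
    rw [hpt, hpt, hadd, Equiv.apply_symm_apply, Equiv.apply_symm_apply] at h1
    exact h1
  -- values over `B` of invariant functions are inertia-fixed integers
  have hvalB : ∀ a : L, a ∈ invFun T₂ → ∀ x ∈ B, (a : X → Qbar) x ∈ inertiaInt P := by
    intro a ha x hx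
    refine ⟨hint a a.2 x, fun σ hσ => ?_⟩
    rw [← hequiv a a.2 σ hσ x]
    have h1 : act σ x = x + (act σ x - x) := by abel
    rw [h1]
    exact hinv a ha x _ (htriv σ hσ x hx)
  -- the basis indexed by `Fin n`
  let b' : Module.Basis (Fin (Fintype.card κ)) (inertiaInt P) L := b.reindex (Fintype.equivFin κ)
  -- the sums over `T₂` are inertia-fixed integers
  have hsum : ∀ h : L, ∃ c : inertiaInt P,
      ∑ t : T₂, (t : Pts (inertiaInt P) L Qbar) h = algebraMap (inertiaInt P) Qbar c := by
    intro h
    have hmem : ∑ t : T₂, (t : Pts (inertiaInt P) L Qbar) h ∈ inertiaInt P := by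
      refine ⟨P.toSubring.sum_mem fun t _ => ?_, fun σ hσ => ?_⟩
      · rw [hpt]
        exact hint h h.2 _
      · rw [map_sum]
        let φ : T₂ → T₂ := fun t => ⟨e.symm (act σ (e (t : Pts (inertiaInt P) L Qbar))), by
          rw [hT₂, Equiv.apply_symm_apply]
          exact hA σ hσ _ t.2⟩
        have hφ : Function.Injective φ := by
          intro t t' htt'
          have h1 := congrArg (fun s : T₂ => e (s : Pts (inertiaInt P) L Qbar)) htt'
          simp only [φ, Equiv.apply_symm_apply] at h1
          exact Subtype.ext (e.injective (hactinj σ hσ h1))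
        have h2 : ∀ t : T₂, σ ((t : Pts (inertiaInt P) L Qbar) h) =
            ((φ t : T₂) : Pts (inertiaInt P) L Qbar) h := by
          intro t
          rw [hpt, hpt]
          simp only [φ, Equiv.apply_symm_apply]
          exact (hequiv h h.2 σ hσ _).symm
        rw [Finset.sum_congr rfl fun t _ => h2 t]
        exact (Finite.injective_iff_bijective.1 hφ).sum_comp
          (fun t : T₂ => (t : Pts (inertiaInt P) L Qbar) h)
    exact ⟨⟨_, hmem⟩, rfl⟩
  have hval : ∀ a ∈ invFun T₂, ∀ x : Pts (inertiaInt P) L Qbar, q x ∈ Q' →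
      ∃ c : inertiaInt P, x a = algebraMap (inertiaInt P) Qbar c := by
    intro a ha x hx
    exact ⟨⟨_, hvalB a ha (e x) (hQ' x hx)⟩, hpt x a⟩
  have hconn' : ∀ a ∈ invFun T₂, ∀ x : Pts (inertiaInt P) L Qbar, q x ∈ Q' →
      ∃ c : inertiaInt P, x a - algebraMap (inertiaInt P) Qbar (counit (R := inertiaInt P) a) =
        algebraMap (inertiaInt P) Qbar ((p : inertiaInt P) * c) := by
    intro a ha x hx
    have hxB := hQ' x hx
    let d : inertiaInt P := ⟨_, hvalB a ha (e x) hxB⟩ - ⟨_, hvalB a ha 0 B.zero_mem⟩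
    have hd : (d : Qbar) = (a : X → Qbar) (e x) - (a : X → Qbar) 0 := rfl
    have hdn : (d : Qbar) ∈ P.nonunits := by
      rw [hd]
      exact hconn a a.2 (e x) hxB
    obtain ⟨c, hc⟩ := natCast_dvd_of_mem_nonunits P hp hP d hdn
    refine ⟨c, ?_⟩
    rw [hpt, hcounit, ← hc]
    exact hd.symm
  -- conclusion
  intro x hx
  have hpow : ∀ (g : Pts (inertiaInt P) L Qbar) (m : ℕ), e (g ^ m) = m • e g := by
    intro g m
    induction m with
    | zero => rw [pow_zero, he1, zero_smul]
    | succ m ih => rw [pow_succ, hadd, ih, succ_nsmul]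
  have hg : (e.symm x) ^ p ∈ T₂ := by
    rw [hT₂, hpow, Equiv.apply_symm_apply]
    exact hpB x hx
  have hgQ : q (e.symm x) ∈ Q' := ⟨x, hx, by simp [q]⟩
  have hp0 : ((p : ℕ) : inertiaInt P) ≠ 0 := by
    intro h
    apply natCast_ne_zero_Qbar P hp hP
    have := congrArg (Subtype.val) h
    simpa using this
  have := Fermat.Agent.S33x.FF.ConnQuot.mem_of_pow_mem hinj hp hp2 hp0
    (fun c hc => eq_zero_of_forall_pow_dvd P hp hP c hc) b' hq Q' hsum hval hconn' (e.symm x) hgQ hg
  rw [hT₂, Equiv.apply_symm_apply] at this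
  exact this

end Fermat.Agent.S33x.FF.NoTriv
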